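import Fermat.Agent.S37.H448.AscentAbs
import Fermat.Agent.S37.Core.Geo
import Fermat.Agent.S18.H9.Res

/-!
# S37 / RED-E4(c) (helper448): (H3) over `A` from (H3) over `𝔽_ℓ` — modular instance

`A ⊆ ℚ̄` a valuation subring, `k = A/𝔪` (algebraically closed, algebraic over `𝔽_ℓ`),
`F₀ = modularFunctionFieldFullC (ZMod ℓ) N ⊆ 𝔽_ℓ((q))`, `F_k = modularFunctionFieldFullC k N`.

* `mem_fullC_decomp` : every `z ∈ F_k` is `∑ C (e i) * ι (w i)` with `w i ∈ F₀`
  (`F_k = k · ι(F₀)`, because `k / 𝔽_ℓ` is algebraic).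
* `lift_of_base` : for ANY coordinate `X₀ ∈ 𝔽_ℓ((q))`: if every `w ∈ F₀` integral over `𝔽_ℓ[X₀]`
  lifts to an `A`-integral series `y` (in `F̄_N`, integral over `A[X]`, where `X̄ = ι X₀`), then
  every `z ∈ F_k` integral over `k[ι X₀]` lifts as well.
* `lift_fin_of_base`, `lift_inf_of_base` : the two charts, in the language of `Core.IntElt`
  (`IsFin`, `IsInf`), i.e. `(H3)` = `Red.Datum.Good.lift_fin / lift_inf` over `A` from the same
  statement for `w` defined over `𝔽_ℓ` — normality of the special fibre is needed only for the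
  model over `ℤ_(ℓ)`.
* `isAlgebraic_residueField`, `lift_fin_of_base_liesOver`, `lift_inf_of_base_liesOver` :
  the instances for `A` over `ℓ`.
-/

set_option autoImplicit false
set_option linter.style.haveILetI false
set_option linter.unusedSimpArgs false
set_option synthInstance.maxHeartbeats 400000

noncomputable section

namespace Fermat.Agent.S37.H448

open HahnSeries ModularCurve Polynomial AlgebraicCurve Fermat.Agent.S37.Core

section Decomp

variable {k₀ k : Type*} [Field k₀] [Field k] [Algebra k₀ k]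

theorem algebraMap_laurent_eq_C (c : k₀) :
    algebraMap k₀ (LaurentSeries k) c = HahnSeries.C (algebraMap k₀ k c) := by
  rw [HahnSeries.algebraMap_apply']
  have h1 : algebraMap k₀ (PowerSeries k) c = PowerSeries.C (algebraMap k₀ k c) := by
    simp [PowerSeries.algebraMap_apply]
  rw [h1, HahnSeries.ofPowerSeries_C]

theorem isScalarTower_laurent :
    @IsScalarTower k₀ k (LaurentSeries k) Algebra.toSMul Algebra.toSMul Algebra.toSMul := by
  refine IsScalarTower.of_algebraMap_eq (R := k₀) (S := k) (A := LaurentSeries k) fun c => ?_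
  rw [algebraMap_laurent_eq_C (k₀ := k₀) (k := k), algebraMap_laurent_eq_C (k₀ := k) (k := k)]
  rfl

/-- the coefficientwise embedding as a `k₀`-algebra homomorphism -/
def iotaAlg (k₀ k : Type*) [Field k₀] [Field k] [Algebra k₀ k] :
    LaurentSeries k₀ →ₐ[k₀] LaurentSeries k where
  __ := coeffMap (algebraMap k₀ k)
  commutes' c := by
    show coeffMap (algebraMap k₀ k) (algebraMap k₀ (LaurentSeries k₀) c) =
      algebraMap k₀ (LaurentSeries k) c
    rw [algebraMap_laurent_eq_C (k₀ := k₀) (k := k₀), algebraMap_laurent_eq_C (k₀ := k₀) (k := k),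
      coeffMap_C']
    rfl

@[simp]
theorem iotaAlg_apply (x : LaurentSeries k₀) : iotaAlg k₀ k x = coeffMap (algebraMap k₀ k) x :=
  rfl

/-- `F_k = k · ι(F₀)` for `k / k₀` algebraic. -/
theorem mem_fullC_decomp [Algebra.IsAlgebraic k₀ k] (N : ℕ) [NeZero N]
    {z : LaurentSeries k} (hz : z ∈ modularFunctionFieldFullC k N) :
    ∃ (m : ℕ) (e : Fin m → k) (w : Fin m → LaurentSeries k₀),
      (∀ i, w i ∈ modularFunctionFieldFullC k₀ N) ∧
      z = ∑ i, HahnSeries.C (e i) * coeffMap (algebraMap k₀ k) (w i) := by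
  classical
  set L : IntermediateField k₀ (LaurentSeries k) :=
    (modularFunctionFieldFullC k₀ N).map (iotaAlg k₀ k) with hL
  have hle : modularFunctionFieldFullC k N ≤ IntermediateField.adjoin k (L : Set (LaurentSeries k)) := by
    rw [modularFunctionFieldFullC, IntermediateField.adjoin_le_iff]
    rintro x ⟨d, hne, hd, rfl⟩
    haveI := hne
    refine IntermediateField.subset_adjoin k _ ?_
    refine ⟨qExpand k₀ d (jqModC k₀), jqModCd_mem_full k₀ N hd, ?_⟩
    show coeffMap (algebraMap k₀ k) (qExpand k₀ d (jqModC k₀)) = qExpand k d (jqModC k)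
    rw [coeffMap_qExpand, coeffMap_jqModC]
  have hz1 : z ∈ (IntermediateField.adjoin k (L : Set (LaurentSeries k))).toSubalgebra := hle hz
  haveI := isScalarTower_laurent (k₀ := k₀) (k := k)
  rw [IntermediateField.adjoin_intermediateField_toSubalgebra_of_isAlgebraic_left] at hz1
  have hz2 := hz1
  rw [← Subalgebra.mem_toSubmodule, Algebra.adjoin_eq_span] at hz2
  have hcl : (Submonoid.closure (L : Set (LaurentSeries k)) : Set (LaurentSeries k)) =
      (L : Set (LaurentSeries k)) := by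
    have : Submonoid.closure (L : Set (LaurentSeries k)) = L.toSubalgebra.toSubmonoid :=
      Submonoid.closure_eq L.toSubalgebra.toSubmonoid
    rw [this]
    rfl
  rw [hcl] at hz2
  obtain ⟨m, f, g, hfg⟩ :=
    (@Submodule.mem_span_set' k (LaurentSeries k) _ _ Algebra.toModule z
      (L : Set (LaurentSeries k))).mp hz2
  have hg : ∀ i, ∃ w ∈ modularFunctionFieldFullC k₀ N,
      coeffMap (algebraMap k₀ k) w = (g i : LaurentSeries k) := by
    intro i
    obtain ⟨w, hw, hwg⟩ := (g i).2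
    exact ⟨w, hw, hwg⟩
  choose w hw hwg using hg
  refine ⟨m, f, w, hw, ?_⟩
  rw [← hfg]
  refine Finset.sum_congr rfl fun i _ => ?_
  rw [hwg i, Algebra.smul_def, algebraMap_laurent_eq_C (k₀ := k) (k := k)]
  rfl

end Decomp

section Lift

variable {N : ℕ} [NeZero N] {ℓ : ℕ} [Fact ℓ.Prime] (A : ValuationSubring (AlgebraicClosure ℚ))

/-- **Generic lifting statement** (any coordinate): if every `w ∈ F₀` integral over `𝔽_ℓ[X₀]`
is the reduction of an `A`-integral series in `F̄_N` integral over `A[X]` (`X̄ = ι X₀`), then so is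
every `z ∈ F_k` integral over `k[ι X₀]`. -/
theorem lift_of_base [IsAlgClosed (IsLocalRing.ResidueField A)]
    (φ : ZMod ℓ →+* IsLocalRing.ResidueField A) (hφ : φ.IsIntegral)
    (X₀ : LaurentSeries (ZMod ℓ)) (X : LaurentSeries A)
    (hbase : ∀ w : LaurentSeries (ZMod ℓ), w ∈ modularFunctionFieldFullC (ZMod ℓ) N →
      (evalSer (ZMod ℓ) X₀).IsIntegralElem w →
      ∃ y : LaurentSeries A, coeffMap A.subtype y ∈ modularFunctionFieldBar N ∧
        (evalSer A X).IsIntegralElem y ∧ coeffMap (IsLocalRing.residue A) y = coeffMap φ w)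
    {z : LaurentSeries (IsLocalRing.ResidueField A)}
    (hz : z ∈ modularFunctionFieldFullC (IsLocalRing.ResidueField A) N)
    (hint : (evalSer (IsLocalRing.ResidueField A) (coeffMap φ X₀)).IsIntegralElem z) :
    ∃ y : LaurentSeries A, coeffMap A.subtype y ∈ modularFunctionFieldBar N ∧
      (evalSer A X).IsIntegralElem y ∧ coeffMap (IsLocalRing.residue A) y = z := by
  classical
  letI : Algebra (ZMod ℓ) (IsLocalRing.ResidueField A) := φ.toAlgebra
  haveI : Algebra.IsIntegral (ZMod ℓ) (IsLocalRing.ResidueField A) := ⟨hφ⟩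
  haveI : Algebra.IsAlgebraic (ZMod ℓ) (IsLocalRing.ResidueField A) :=
    Algebra.IsIntegral.isAlgebraic
  have hφa : algebraMap (ZMod ℓ) (IsLocalRing.ResidueField A) = φ := rfl
  obtain ⟨m, e, w, hw, rfl⟩ := mem_fullC_decomp (k₀ := ZMod ℓ) N hz
  have hCmem : ∀ (c : ZMod ℓ) (x : LaurentSeries (ZMod ℓ)),
      x ∈ (modularFunctionFieldFullC (ZMod ℓ) N : Set (LaurentSeries (ZMod ℓ))) →
      HahnSeries.C c * x ∈ (modularFunctionFieldFullC (ZMod ℓ) N : Set (LaurentSeries (ZMod ℓ))) := by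
    intro c x hx
    refine mul_mem ?_ hx
    have h1 : (HahnSeries.C c : LaurentSeries (ZMod ℓ)) =
        algebraMap (ZMod ℓ) (LaurentSeries (ZMod ℓ)) c := by
      rw [algebraMap_laurentSeries_eq_single]
      rfl
    rw [h1]
    exact (modularFunctionFieldFullC (ZMod ℓ) N).algebraMap_mem _
  obtain ⟨n, e', w', hw', hint', hzz⟩ := exists_integral_decomp
    (modularFunctionFieldFullC (ZMod ℓ) N : Set (LaurentSeries (ZMod ℓ))) (zero_mem _)
    (fun x y hx hy => add_mem hx hy) hCmem X₀ e w hw hint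
  have hy : ∀ j, ∃ y : LaurentSeries A, coeffMap A.subtype y ∈ modularFunctionFieldBar N ∧
      (evalSer A X).IsIntegralElem y ∧ coeffMap (IsLocalRing.residue A) y = coeffMap φ (w' j) :=
    fun j => hbase (w' j) (hw' j) (hint' j)
  choose y hy1 hy2 hy3 using hy
  have ha : ∀ j, ∃ a : A, IsLocalRing.residue A a = e' j := fun j =>
    IsLocalRing.residue_surjective (e' j)
  choose a ha using ha
  refine ⟨∑ j, HahnSeries.C (a j) * y j, ?_, ?_, ?_⟩
  · rw [map_sum]
    refine sum_mem fun j _ => ?_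
    rw [map_mul, coeffMap_C']
    refine mul_mem ?_ (hy1 j)
    have h1 : (HahnSeries.C (A.subtype (a j)) : LaurentSeries (AlgebraicClosure ℚ)) =
        algebraMap (AlgebraicClosure ℚ) (LaurentSeries (AlgebraicClosure ℚ)) (a j : AlgebraicClosure ℚ) := by
      rw [algebraMap_laurentSeries_eq_single]
      rfl
    rw [h1]
    exact (modularFunctionFieldBar N).algebraMap_mem _
  · exact isIntegralElem_sum _ _ _ fun j _ =>
      RingHom.IsIntegralElem.mul _ (isIntegralElem_C _ _) (hy2 j)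
  · rw [hzz, map_sum]
    refine Finset.sum_congr rfl fun j _ => ?_
    rw [map_mul, coeffMap_C', ha j, hy3 j, hφa]

/-- **(H3), finite chart**: lifting of elements of `F_k` integral over `k[j̄]` to
`Core.IntElt A N` with `IsFin`, from the same statement for the elements defined over `𝔽_ℓ`. -/
theorem lift_fin_of_base [IsAlgClosed (IsLocalRing.ResidueField A)]
    (φ : ZMod ℓ →+* IsLocalRing.ResidueField A) (hφ : φ.IsIntegral)
    (hbase : ∀ w : LaurentSeries (ZMod ℓ), w ∈ modularFunctionFieldFullC (ZMod ℓ) N →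
      (evalSer (ZMod ℓ) (jqModC (ZMod ℓ))).IsIntegralElem w →
      ∃ c : IntElt A N, c.IsFin ∧ coeffMap (IsLocalRing.residue A) c.y = coeffMap φ w)
    {z : LaurentSeries (IsLocalRing.ResidueField A)}
    (hz : z ∈ modularFunctionFieldFullC (IsLocalRing.ResidueField A) N)
    (hint : (evalSer (IsLocalRing.ResidueField A)
      (jqModC (IsLocalRing.ResidueField A))).IsIntegralElem z) :
    ∃ c : IntElt A N, c.IsFin ∧ coeffMap (IsLocalRing.residue A) c.y = z := by
  have hint' : (evalSer (IsLocalRing.ResidueField A)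
      (coeffMap φ (jqModC (ZMod ℓ)))).IsIntegralElem z := by
    rwa [coeffMap_jqModC]
  obtain ⟨y, hy1, hy2, hy3⟩ := lift_of_base A φ hφ (jqModC (ZMod ℓ)) (jqModC A)
    (fun w hw hwi => by
      obtain ⟨c, hc, hcw⟩ := hbase w hw hwi
      exact ⟨c.y, c.mem, hc, hcw⟩) hz hint'
  exact ⟨⟨y, hy1, by rw [hy3]; exact hz⟩, hy2, hy3⟩

/-- **(H3), chart at infinity**: the same with `j⁻¹`. -/
theorem lift_inf_of_base [IsAlgClosed (IsLocalRing.ResidueField A)]
    (φ : ZMod ℓ →+* IsLocalRing.ResidueField A) (hφ : φ.IsIntegral)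
    (hbase : ∀ w : LaurentSeries (ZMod ℓ), w ∈ modularFunctionFieldFullC (ZMod ℓ) N →
      (evalSer (ZMod ℓ) (jqModC (ZMod ℓ))⁻¹).IsIntegralElem w →
      ∃ c : IntElt A N, c.IsInf ∧ coeffMap (IsLocalRing.residue A) c.y = coeffMap φ w)
    {z : LaurentSeries (IsLocalRing.ResidueField A)}
    (hz : z ∈ modularFunctionFieldFullC (IsLocalRing.ResidueField A) N)
    (hint : (evalSer (IsLocalRing.ResidueField A)
      (jqModC (IsLocalRing.ResidueField A))⁻¹).IsIntegralElem z) :
    ∃ c : IntElt A N, c.IsInf ∧ coeffMap (IsLocalRing.residue A) c.y = z := by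
  -- the inverse of `j` over `A`
  obtain ⟨c₀, ⟨u, hu, -⟩, -⟩ := hbase 0 (zero_mem _) (RingHom.isIntegralElem_zero _)
  have huniq : ∀ u' : LaurentSeries A, u' * jqModC A = 1 → u' = u := by
    intro u' hu'
    calc u' = u' * (u * jqModC A) := by rw [hu, mul_one]
      _ = (u' * jqModC A) * u := by ring
      _ = u := by rw [hu', one_mul]
  have hint' : (evalSer (IsLocalRing.ResidueField A)
      (coeffMap φ (jqModC (ZMod ℓ))⁻¹)).IsIntegralElem z := by
    rwa [map_inv₀, coeffMap_jqModC]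
  obtain ⟨y, hy1, hy2, hy3⟩ := lift_of_base A φ hφ (jqModC (ZMod ℓ))⁻¹ u
    (fun w hw hwi => by
      obtain ⟨c, ⟨u', hu', hc⟩, hcw⟩ := hbase w hw hwi
      rw [huniq u' hu'] at hc
      exact ⟨c.y, c.mem, hc, hcw⟩) hz hint'
  exact ⟨⟨y, hy1, by rw [hy3]; exact hz⟩, ⟨u, hu, hy2⟩, hy3⟩

end Lift

section Instances

variable {ℓ : ℕ} [Fact ℓ.Prime] (A : ValuationSubring (AlgebraicClosure ℚ))

/-- the residue field of a valuation subring of `ℚ̄` is algebraic over `𝔽_ℓ` (for any ring
homomorphism `𝔽_ℓ → k`) -/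
theorem isIntegral_residueField (φ : ZMod ℓ →+* IsLocalRing.ResidueField A) : φ.IsIntegral := by
  intro x
  obtain ⟨a, rfl⟩ := IsLocalRing.residue_surjective x
  -- an integer polynomial killing `a`
  have halg : IsAlgebraic ℤ (a : AlgebraicClosure ℚ) :=
    (IsFractionRing.isAlgebraic_iff ℤ ℚ (AlgebraicClosure ℚ)).mpr
      ((AlgebraicClosure.isAlgebraic ℚ).isAlgebraic (a : AlgebraicClosure ℚ))
  obtain ⟨P, hP0, hPa⟩ := halg
  -- its primitive part
  have hc0 : (P.content : AlgebraicClosure ℚ) ≠ 0 := by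
    have : P.content ≠ 0 := fun h => hP0 (Polynomial.content_eq_zero_iff.mp h)
    exact_mod_cast this
  have hPa1 : Polynomial.aeval (a : AlgebraicClosure ℚ) P.primPart = 0 := by
    have h1 := hPa
    rw [P.eq_C_content_mul_primPart, map_mul, Polynomial.aeval_C] at h1
    rcases mul_eq_zero.mp h1 with h2 | h2
    · exact absurd (by simpa using h2) hc0
    · exact h2
  have hprim : P.primPart.IsPrimitive := P.isPrimitive_primPart
  have hℓ : (ℓ : ℕ).Prime := Fact.out
  have hred : P.primPart.map (Int.castRingHom (ZMod ℓ)) ≠ 0 := by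
    intro h0
    have hdvd : Polynomial.C ((ℓ : ℕ) : ℤ) ∣ P.primPart := by
      rw [Polynomial.C_dvd_iff_dvd_coeff]
      intro n
      have := congrArg (fun q => q.coeff n) h0
      simp only [Polynomial.coeff_map, Polynomial.coeff_zero, eq_intCast] at this
      exact (ZMod.intCast_zmod_eq_zero_iff_dvd _ _).mp this
    have hu := hprim _ hdvd
    rw [Int.isUnit_iff] at hu
    rcases hu with h | h
    · have : (ℓ : ℤ) = 1 := h
      have : ℓ = 1 := by exact_mod_cast this
      exact hℓ.one_lt.ne' this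
    · have : (ℓ : ℤ) = -1 := h
      have h2 : (0 : ℤ) ≤ (ℓ : ℤ) := Int.natCast_nonneg ℓ
      omega
  -- evaluation in `A`
  have hA0 : Polynomial.eval₂ (Int.castRingHom A) a P.primPart = 0 := by
    apply Subtype.ext
    have h1 : ((Polynomial.eval₂ (Int.castRingHom A) a P.primPart : A) : AlgebraicClosure ℚ) =
        Polynomial.eval₂ (A.subtype.comp (Int.castRingHom A)) (A.subtype a) P.primPart :=
      Polynomial.hom_eval₂ P.primPart (Int.castRingHom A) A.subtype a
    rw [h1, ZeroMemClass.coe_zero, ← hPa1, Polynomial.aeval_def]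
    congr 1
  letI : Algebra (ZMod ℓ) (IsLocalRing.ResidueField A) := φ.toAlgebra
  have halg' : IsAlgebraic (ZMod ℓ) (IsLocalRing.residue A a) := by
    refine ⟨P.primPart.map (Int.castRingHom (ZMod ℓ)), hred, ?_⟩
    rw [Polynomial.aeval_def, Polynomial.eval₂_map]
    have h2 : (algebraMap (ZMod ℓ) (IsLocalRing.ResidueField A)).comp (Int.castRingHom (ZMod ℓ)) =
        (IsLocalRing.residue A).comp (Int.castRingHom A) := RingHom.ext_int _ _
    rw [h2, ← Polynomial.hom_eval₂, hA0, map_zero]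
  exact halg'.isIntegral

/-- the residue field of a valuation subring of `ℚ̄` over `ℓ` has characteristic `ℓ`
(copy of `charP_residueField_of_liesOverPrime`, to keep this file light) -/
theorem charP_resField (hA : A.LiesOverPrime ℓ) : CharP (IsLocalRing.ResidueField A) ℓ := by
  refine (CharP.charP_iff_prime_eq_zero (Fact.out : ℓ.Prime)).mpr ?_
  have h1 : ((ℓ : A) : AlgebraicClosure ℚ) ∈ A.nonunits := by
    have : ((ℓ : A) : AlgebraicClosure ℚ) = (ℓ : AlgebraicClosure ℚ) := by push_cast; rfl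
    rw [this]; exact hA
  have h2 : (ℓ : A) ∈ IsLocalRing.maximalIdeal A := ValuationSubring.coe_mem_nonunits_iff.mp h1
  have h3 := (IsLocalRing.residue_eq_zero_iff (ℓ : A)).mpr h2
  rwa [map_natCast] at h3

/-- there is a ring homomorphism `𝔽_ℓ → k` -/
theorem exists_zmod_hom (hA : A.LiesOverPrime ℓ) :
    Nonempty (ZMod ℓ →+* IsLocalRing.ResidueField A) := by
  haveI := charP_resField A hA
  exact ⟨ZMod.castHom (dvd_refl ℓ) (IsLocalRing.ResidueField A)⟩

variable {N : ℕ} [NeZero N]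

/-- **(H3) over `A` from (H3) over `𝔽_ℓ`, finite chart**, `A` over `ℓ`.  (`c.sp` form.) -/
theorem lift_fin_of_base_liesOver (hA : A.LiesOverPrime ℓ)
    (hbase : ∀ (φ : ZMod ℓ →+* IsLocalRing.ResidueField A) (w : LaurentSeries (ZMod ℓ)),
      w ∈ modularFunctionFieldFullC (ZMod ℓ) N →
      (evalSer (ZMod ℓ) (jqModC (ZMod ℓ))).IsIntegralElem w →
      ∃ c : IntElt A N, c.IsFin ∧ coeffMap (IsLocalRing.residue A) c.y = coeffMap φ w)
    (z : modularFunctionFieldFullC (IsLocalRing.ResidueField A) N)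
    (hint : (evalSer (IsLocalRing.ResidueField A)
      (jqModC (IsLocalRing.ResidueField A))).IsIntegralElem (z : LaurentSeries _)) :
    ∃ c : IntElt A N, c.IsFin ∧ c.sp = z := by
  haveI := Fermat.Agent.S18.H9.resAlgClosed (AlgebraicClosure ℚ) A
  obtain ⟨φ⟩ := exists_zmod_hom A hA
  obtain ⟨c, hc, hcz⟩ := lift_fin_of_base A φ (isIntegral_residueField A φ) (hbase φ) z.2 hint
  exact ⟨c, hc, Subtype.ext hcz⟩

/-- **(H3) over `A` from (H3) over `𝔽_ℓ`, chart at infinity**, `A` over `ℓ`. -/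
theorem lift_inf_of_base_liesOver (hA : A.LiesOverPrime ℓ)
    (hbase : ∀ (φ : ZMod ℓ →+* IsLocalRing.ResidueField A) (w : LaurentSeries (ZMod ℓ)),
      w ∈ modularFunctionFieldFullC (ZMod ℓ) N →
      (evalSer (ZMod ℓ) (jqModC (ZMod ℓ))⁻¹).IsIntegralElem w →
      ∃ c : IntElt A N, c.IsInf ∧ coeffMap (IsLocalRing.residue A) c.y = coeffMap φ w)
    (z : modularFunctionFieldFullC (IsLocalRing.ResidueField A) N)
    (hint : (evalSer (IsLocalRing.ResidueField A)
      (jqModC (IsLocalRing.ResidueField A))⁻¹).IsIntegralElem (z : LaurentSeries _)) :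
    ∃ c : IntElt A N, c.IsInf ∧ c.sp = z := by
  haveI := Fermat.Agent.S18.H9.resAlgClosed (AlgebraicClosure ℚ) A
  obtain ⟨φ⟩ := exists_zmod_hom A hA
  obtain ⟨c, hc, hcz⟩ := lift_inf_of_base A φ (isIntegral_residueField A φ) (hbase φ) z.2 hint
  exact ⟨c, hc, Subtype.ext hcz⟩

end Instances

section BaseRing

variable {N : ℕ} {ℓ : ℕ} [Fact ℓ.Prime] (A : ValuationSubring (AlgebraicClosure ℚ))

/-- **Adapter for the producer of (H3) over a base ring `R₀`** (e.g. `R₀ = ℤ_(ℓ)`): if every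
`w ∈ F₀` integral over `𝔽_ℓ[j̄]` is the reduction (along `ρ₀ : R₀ → 𝔽_ℓ`) of a series
`y₀ ∈ R₀((q))`, integral over `R₀[j]`, whose image in `ℚ̄((q))` lies in `F̄_N`, then the hypothesis
`hbase` of `lift_fin_of_base` holds for every `φ` with `residue ∘ ψ = φ ∘ ρ₀`. -/
theorem base_fin_of_ring {R₀ : Type*} [CommRing R₀] (ψ : R₀ →+* A) (ρ₀ : R₀ →+* ZMod ℓ)
    (φ : ZMod ℓ →+* IsLocalRing.ResidueField A)
    (hcomp : (IsLocalRing.residue A).comp ψ = φ.comp ρ₀)
    (hmemk : ∀ y : LaurentSeries A, coeffMap A.subtype y ∈ modularFunctionFieldBar N →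
      coeffMap (IsLocalRing.residue A) y ∈ modularFunctionFieldFullC (IsLocalRing.ResidueField A) N)
    (h0 : ∀ w : LaurentSeries (ZMod ℓ), w ∈ modularFunctionFieldFullC (ZMod ℓ) N →
      (evalSer (ZMod ℓ) (jqModC (ZMod ℓ))).IsIntegralElem w →
      ∃ y₀ : LaurentSeries R₀,
        coeffMap (A.subtype.comp ψ) y₀ ∈ modularFunctionFieldBar N ∧
        (evalSer R₀ (jqModC R₀)).IsIntegralElem y₀ ∧ coeffMap ρ₀ y₀ = w)
    (w : LaurentSeries (ZMod ℓ)) (hw : w ∈ modularFunctionFieldFullC (ZMod ℓ) N)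
    (hwi : (evalSer (ZMod ℓ) (jqModC (ZMod ℓ))).IsIntegralElem w) :
    ∃ c : IntElt A N, c.IsFin ∧ coeffMap (IsLocalRing.residue A) c.y = coeffMap φ w := by
  obtain ⟨y₀, hy1, hy2, hy3⟩ := h0 w hw hwi
  have hmem : coeffMap A.subtype (coeffMap ψ y₀) ∈ modularFunctionFieldBar N := by
    rw [coeffMap_coeffMap]
    exact hy1
  refine ⟨⟨coeffMap ψ y₀, hmem, hmemk _ hmem⟩, ?_, ?_⟩
  · have h1 := isIntegralElem_coeffMap ψ hy2
    rw [coeffMap_jqModC] at h1
    exact h1
  · show coeffMap (IsLocalRing.residue A) (coeffMap ψ y₀) = coeffMap φ w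
    rw [coeffMap_coeffMap, hcomp, ← coeffMap_coeffMap, hy3]

end BaseRing

end Fermat.Agent.S37.H448
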