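import Mathlib
import Fermat.Prelude.Def_ModularCurve_LaurentCoeff

/-!
# S37 / RED-E4(c) (helper448): geometric normality ascends along algebraic extensions of a
perfect field — abstract q-series form

Setting: `k₀` a perfect field, `k / k₀` an algebraic extension with `k` algebraically closed,
`ι : k₀((q)) → k((q))` the coefficientwise embedding, `X ∈ k₀((q))` a coordinate.
Integrality over `R[X]` inside `R((q))` is `(evalSer R X).IsIntegralElem z`
(`evalSer R X : R[T] →+* R((q))`, `T ↦ X`; this is the shape of `Core.IntElt.IsFin`).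

Main result `exists_integral_decomp`:
if `z = ∑ C (e i) * ι (w i)` with `w i` in a `k₀`-subspace `F₀ ⊆ k₀((q))` (a set closed under
`0`, `+` and multiplication by constants `C c`) and `z` is integral
over `k[ι X]`, then `z = ∑ C (e' j) * ι (w' j)` with `w' j ∈ F₀` **integral over `k₀[X]`**.

Proof: `k' := k₀(e i)` is finite separable over `k₀`; take a basis `b` of `k'/k₀`, its dual basis
`d` for the trace form, rewrite `z = ∑ C (b j) * ι (w' j)`; then
`ι (w' j) = ∑_σ C (σ (d j)) * σ̂ z` (sum over the embeddings `σ : k' → k`, `σ̂` an extension of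
`σ` to `k`, acting coefficientwise), a sum of products of integral elements; finally integrality
descends from `k[ι X]` to `k₀[X]` because `k[T]` is integral over `k₀[T]` and `ι` is injective.
-/

set_option autoImplicit false
set_option linter.style.haveILetI false
set_option linter.unusedSimpArgs false

noncomputable section

namespace Fermat.Agent.S37.H448

open HahnSeries ModularCurve Polynomial

/-- evaluation `R[T] → R((q))`, `T ↦ u` (same term as `Core.evalSeries`) -/
def evalSer (R : Type*) [CommRing R] (u : LaurentSeries R) :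
    Polynomial R →+* LaurentSeries R :=
  Polynomial.eval₂RingHom (HahnSeries.C : R →+* LaurentSeries R) u

section Basic

variable {R S : Type*} [CommRing R] [CommRing S]

theorem coeffMap_C' (f : R →+* S) (r : R) :
    coeffMap f (HahnSeries.C r) = HahnSeries.C (f r) := by
  show coeffMap f (HahnSeries.single 0 r) = HahnSeries.single 0 (f r)
  exact coeffMap_single f 0 r

theorem coeffMap_injective' {f : R →+* S} (hf : Function.Injective f) :
    Function.Injective (coeffMap f) := by
  intro x y h
  ext n
  apply hf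
  have := congrArg (fun s => s.coeff n) h
  simpa using this

theorem evalSer_C (u : LaurentSeries R) (r : R) :
    evalSer R u (Polynomial.C r) = HahnSeries.C r := by
  simp [evalSer]

theorem evalSer_X (u : LaurentSeries R) : evalSer R u Polynomial.X = u := by
  simp [evalSer]

/-- base change of the evaluation map -/
theorem coeffMap_comp_evalSer (f : R →+* S) (u : LaurentSeries R) :
    (coeffMap f).comp (evalSer R u) =
      (evalSer S (coeffMap f u)).comp (Polynomial.mapRingHom f) := by
  apply Polynomial.ringHom_ext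
  · intro r
    simp [evalSer_C, coeffMap_C']
  · simp [evalSer_X]

/-- integrality is preserved by coefficient maps -/
theorem isIntegralElem_coeffMap (f : R →+* S) {u z : LaurentSeries R}
    (h : (evalSer R u).IsIntegralElem z) :
    (evalSer S (coeffMap f u)).IsIntegralElem (coeffMap f z) := by
  obtain ⟨p, hp, hz⟩ := h
  refine ⟨p.map (Polynomial.mapRingHom f), hp.map _, ?_⟩
  rw [Polynomial.eval₂_map, ← coeffMap_comp_evalSer, ← Polynomial.hom_eval₂, hz, map_zero]

theorem isIntegralElem_C (u : LaurentSeries R) (r : R) :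
    (evalSer R u).IsIntegralElem (HahnSeries.C r) := by
  rw [← evalSer_C u r]
  exact RingHom.isIntegralElem_map _

theorem isIntegralElem_sum (g : Polynomial R →+* LaurentSeries R) {ι : Type*} (s : Finset ι)
    (f : ι → LaurentSeries R) (h : ∀ i ∈ s, g.IsIntegralElem (f i)) :
    g.IsIntegralElem (∑ i ∈ s, f i) := by
  classical
  induction s using Finset.induction_on with
  | empty =>
    rw [Finset.sum_empty]
    exact g.isIntegralElem_zero
  | insert a s ha ih =>
    rw [Finset.sum_insert ha]
    exact RingHom.IsIntegralElem.add g (h a (Finset.mem_insert_self a s))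
      (ih fun i hi => h i (Finset.mem_insert_of_mem hi))

end Basic

section Descent

variable {k₀ k : Type*} [Field k₀] [Field k] [Algebra k₀ k]

/-- `k[T]` is integral over `k₀[T]` when `k / k₀` is algebraic -/
theorem mapRingHom_isIntegral [Algebra.IsAlgebraic k₀ k] :
    (Polynomial.mapRingHom (algebraMap k₀ k)).IsIntegral := by
  intro p
  induction p using Polynomial.induction_on' with
  | add p q hp hq => exact RingHom.IsIntegralElem.add _ hp hq
  | monomial n a =>
    have ha : (Polynomial.mapRingHom (algebraMap k₀ k)).IsIntegralElem (Polynomial.C a) := by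
      obtain ⟨m, hm, hma⟩ := (Algebra.IsAlgebraic.isAlgebraic (R := k₀) a).isIntegral
      refine ⟨m.map (Polynomial.C : k₀ →+* Polynomial k₀), hm.map _, ?_⟩
      rw [Polynomial.eval₂_map]
      have hcomp : (Polynomial.mapRingHom (algebraMap k₀ k)).comp (Polynomial.C : k₀ →+* _) =
          (Polynomial.C : k →+* Polynomial k).comp (algebraMap k₀ k) := by
        ext r
        simp
      rw [hcomp, ← Polynomial.hom_eval₂, hma, map_zero]
    have hX : (Polynomial.mapRingHom (algebraMap k₀ k)).IsIntegralElem
        (Polynomial.X ^ n : Polynomial k) := by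
      have : (Polynomial.X ^ n : Polynomial k) =
          Polynomial.mapRingHom (algebraMap k₀ k) (Polynomial.X ^ n) := by simp
      rw [this]
      exact RingHom.isIntegralElem_map _
    rw [← Polynomial.C_mul_X_pow_eq_monomial]
    exact RingHom.IsIntegralElem.mul _ ha hX

/-- integrality descends from `k[ι X]` to `k₀[X]` -/
theorem isIntegralElem_descent [Algebra.IsAlgebraic k₀ k] {X w : LaurentSeries k₀}
    (h : (evalSer k (coeffMap (algebraMap k₀ k) X)).IsIntegralElem
      (coeffMap (algebraMap k₀ k) w)) :
    (evalSer k₀ X).IsIntegralElem w := by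
  set f := evalSer k (coeffMap (algebraMap k₀ k) X) with hf
  set g := Polynomial.mapRingHom (algebraMap k₀ k) with hg
  have hfg : (f.comp g).IsIntegralElem (coeffMap (algebraMap k₀ k) w) := by
    letI : Algebra (Polynomial k₀) (Polynomial k) := g.toAlgebra
    letI : Algebra (Polynomial k) (LaurentSeries k) := f.toAlgebra
    letI : Algebra (Polynomial k₀) (LaurentSeries k) := (f.comp g).toAlgebra
    haveI : IsScalarTower (Polynomial k₀) (Polynomial k) (LaurentSeries k) :=
      IsScalarTower.of_algebraMap_eq fun _ => rfl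
    haveI : Algebra.IsIntegral (Polynomial k₀) (Polynomial k) := ⟨mapRingHom_isIntegral⟩
    exact isIntegral_trans (R := Polynomial k₀) (A := Polynomial k) _ h
  obtain ⟨P, hP, hPz⟩ := hfg
  refine ⟨P, hP, ?_⟩
  have hcomp : f.comp g = (coeffMap (algebraMap k₀ k)).comp (evalSer k₀ X) :=
    (coeffMap_comp_evalSer (algebraMap k₀ k) X).symm
  rw [hcomp, ← Polynomial.hom_eval₂] at hPz
  exact coeffMap_injective' (algebraMap k₀ k).injective (hPz.trans (map_zero _).symm)

end Descent

section Main

variable {k₀ k : Type*} [Field k₀] [Field k] [Algebra k₀ k]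

theorem coeffMap_smul_eq (c : k₀) (w : LaurentSeries k₀) :
    coeffMap (algebraMap k₀ k) (c • w) =
      HahnSeries.C (algebraMap k₀ k c) * coeffMap (algebraMap k₀ k) w := by
  rw [← HahnSeries.C_mul_eq_smul, map_mul, coeffMap_C']

/-- **Geometric normality ascent, abstract form.**  If `z = ∑ C (e i) * ι (w i)` with `w i` in
the set `F₀` (closed under `k₀`-linear combinations) is integral over `k[ι X]`, then `z = ∑ C (e' j) * ι (w' j)` with
`w' j ∈ F₀` integral over `k₀[X]`. -/
theorem exists_integral_decomp [PerfectField k₀] [IsAlgClosed k] [Algebra.IsAlgebraic k₀ k]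
    (F₀ : Set (LaurentSeries k₀)) (h0 : (0 : LaurentSeries k₀) ∈ F₀)
    (hadd : ∀ x y : LaurentSeries k₀, x ∈ F₀ → y ∈ F₀ → x + y ∈ F₀)
    (hC : ∀ (c : k₀) (x : LaurentSeries k₀), x ∈ F₀ → HahnSeries.C c * x ∈ F₀)
    (X : LaurentSeries k₀)
    {m : ℕ} (e : Fin m → k) (w : Fin m → LaurentSeries k₀) (hw : ∀ i, w i ∈ F₀)
    (hint : (evalSer k (coeffMap (algebraMap k₀ k) X)).IsIntegralElem
      (∑ i, HahnSeries.C (e i) * coeffMap (algebraMap k₀ k) (w i))) :
    ∃ (n : ℕ) (e' : Fin n → k) (w' : Fin n → LaurentSeries k₀),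
      (∀ j, w' j ∈ F₀) ∧ (∀ j, (evalSer k₀ X).IsIntegralElem (w' j)) ∧
      ∑ i, HahnSeries.C (e i) * coeffMap (algebraMap k₀ k) (w i) =
        ∑ j, HahnSeries.C (e' j) * coeffMap (algebraMap k₀ k) (w' j) := by
  classical
  set z := ∑ i, HahnSeries.C (e i) * coeffMap (algebraMap k₀ k) (w i) with hz
  -- the finite subextension generated by the `e i`
  let k' : IntermediateField k₀ k := IntermediateField.adjoin k₀ (Set.range e)
  haveI : FiniteDimensional k₀ k' :=
    IntermediateField.finiteDimensional_adjoin
      (fun x _ => (Algebra.IsAlgebraic.isAlgebraic (R := k₀) x).isIntegral)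
  haveI : Algebra.IsSeparable k₀ k' := Algebra.IsAlgebraic.isSeparable_of_perfectField
  haveI : IsAlgClosure k₀ k := ⟨inferInstance, inferInstance⟩
  haveI : Normal k₀ k := IsAlgClosure.normal k₀ k
  let b : Module.Basis (Fin (Module.finrank k₀ k')) k₀ k' := Module.finBasis k₀ k'
  let d : Module.Basis (Fin (Module.finrank k₀ k')) k₀ k' :=
    (Algebra.traceForm k₀ k').dualBasis (traceForm_nondegenerate k₀ k') b
  have he : ∀ i, e i ∈ k' := fun i => IntermediateField.subset_adjoin k₀ _ ⟨i, rfl⟩
  let c : Fin m → Fin (Module.finrank k₀ k') → k₀ := fun i j => b.repr ⟨e i, he i⟩ j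
  have hc : ∀ i, e i = ∑ j, algebraMap k₀ k (c i j) * ((b j : k') : k) := by
    intro i
    have h1 := b.sum_repr ⟨e i, he i⟩
    have h2 := congrArg (fun x : k' => (x : k)) h1
    simp only [AddSubmonoidClass.coe_finsetSum] at h2
    rw [← h2]
    refine Finset.sum_congr rfl fun j _ => ?_
    rw [IntermediateField.coe_smul, Algebra.smul_def]
  let w' : Fin (Module.finrank k₀ k') → LaurentSeries k₀ :=
    fun j => ∑ i, HahnSeries.C (c i j) * w i
  have hw' : ∀ j, w' j ∈ F₀ := fun j =>
    Finset.sum_induction _ (fun x => x ∈ F₀) hadd h0 fun i _ => hC _ _ (hw i)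
  have hzw' : z = ∑ j, HahnSeries.C ((b j : k') : k) * coeffMap (algebraMap k₀ k) (w' j) := by
    have h1 : ∀ j, HahnSeries.C ((b j : k') : k) * coeffMap (algebraMap k₀ k) (w' j) =
        ∑ i, HahnSeries.C (algebraMap k₀ k (c i j) * ((b j : k') : k)) *
          coeffMap (algebraMap k₀ k) (w i) := by
      intro j
      rw [map_sum, Finset.mul_sum]
      refine Finset.sum_congr rfl fun i _ => ?_
      rw [map_mul, coeffMap_C', map_mul]
      ring
    rw [Finset.sum_congr rfl fun j _ => h1 j, Finset.sum_comm, hz]
    refine Finset.sum_congr rfl fun i _ => ?_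
    rw [← Finset.sum_mul, ← map_sum, ← hc i]
  -- the conjugates of `z`
  have hconj : ∀ σ : k' →ₐ[k₀] k,
      coeffMap ((σ.liftNormal k : k →ₐ[k₀] k) : k →+* k) z =
        ∑ i, HahnSeries.C (σ (b i)) * coeffMap (algebraMap k₀ k) (w' i) := by
    intro σ
    rw [hzw', map_sum]
    refine Finset.sum_congr rfl fun i _ => ?_
    rw [map_mul, coeffMap_C', coeffMap_coeffMap]
    have h1 : ((σ.liftNormal k : k →ₐ[k₀] k) : k →+* k) ((b i : k') : k) = σ (b i) :=
      AlgHom.liftNormal_commutes σ k (b i)
    have h2 : (((σ.liftNormal k : k →ₐ[k₀] k) : k →+* k).comp (algebraMap k₀ k)) =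
        algebraMap k₀ k := by
      ext r
      exact (σ.liftNormal k).commutes r
    rw [h1, h2]
  have key : ∀ j, coeffMap (algebraMap k₀ k) (w' j) =
      ∑ σ : k' →ₐ[k₀] k, HahnSeries.C (σ (d j)) *
        coeffMap ((σ.liftNormal k : k →ₐ[k₀] k) : k →+* k) z := by
    intro j
    have h1 : ∀ σ : k' →ₐ[k₀] k, HahnSeries.C (σ (d j)) *
        coeffMap ((σ.liftNormal k : k →ₐ[k₀] k) : k →+* k) z =
        ∑ i, HahnSeries.C (σ (d j * b i)) * coeffMap (algebraMap k₀ k) (w' i) := by
      intro σ
      rw [hconj σ, Finset.mul_sum]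
      refine Finset.sum_congr rfl fun i _ => ?_
      rw [map_mul, map_mul, mul_assoc]
    rw [Finset.sum_congr rfl fun σ _ => h1 σ, Finset.sum_comm]
    have h2 : ∀ i, ∑ σ : k' →ₐ[k₀] k, HahnSeries.C (σ (d j * b i)) *
        coeffMap (algebraMap k₀ k) (w' i) =
        if i = j then coeffMap (algebraMap k₀ k) (w' i) else 0 := by
      intro i
      rw [← Finset.sum_mul, ← map_sum, ← trace_eq_sum_embeddings k, ← Algebra.traceForm_apply,
        LinearMap.BilinForm.apply_dualBasis_left]
      split_ifs with h
      · rw [map_one, map_one, one_mul]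
      · rw [map_zero, map_zero, zero_mul]
    rw [Finset.sum_congr rfl fun i _ => h2 i, Finset.sum_ite_eq' Finset.univ j]
    simp
  refine ⟨Module.finrank k₀ k', fun j => ((b j : k') : k), w', hw', ?_, hzw'⟩
  intro j
  apply isIntegralElem_descent (k := k)
  rw [key j]
  refine isIntegralElem_sum _ _ _ fun σ _ =>
    RingHom.IsIntegralElem.mul _ (isIntegralElem_C _ _) ?_
  have h3 := isIntegralElem_coeffMap ((σ.liftNormal k : k →ₐ[k₀] k) : k →+* k) hint
  have h4 : (((σ.liftNormal k : k →ₐ[k₀] k) : k →+* k).comp (algebraMap k₀ k)) =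
      algebraMap k₀ k := by
    ext r
    exact (σ.liftNormal k).commutes r
  rwa [coeffMap_coeffMap, h4] at h3

end Main

end Fermat.Agent.S37.H448
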